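import Fermat.Agent.S59.NMP.Spec
import Fermat.Agent.S59.H649.StrictSpec
import Fermat.Agent.S59.H779.FlatLevels

/-!
# Row S59, cell NMP, leaf SEL — frozen sub-interface (sub-architect helper139)

Goal: `Fermat.Agent.S59.NMP.SelStatement` (the Selmer step at `p`).

Route = RING SIDE (pattern of `Fermat.Agent.S59.H126.nmSel`), no `A_n`-deformations and no
"flat ⟹ peu ramifié":

* `R' = R^ord`, `R = R^flat`, `β : R' → R`, `x : R → 𝒪`, `I' = ker (x ∘ β)`.
* (K) `KumValStatement`: the universal ordinary deformation over `R'` has a *Kummer valuation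
  element* `v ∈ R'`: `(a² - 1) v = 0` (`a` = Frobenius on the unramified quotient) and every finite
  level `I ∋ v` is peu ramifié (`IsPeuLevel`: Kummer form, inertia-equivariant unit generators).
* (F) `PeuHopfStatement`: a peu ramifié finite level of an ordinary representation with
  cyclotomic determinant has a Hopf model (`H779.FlatLevel`).  [`H601.peuFlat` is the case of a
  field; the proof is the same: unit eigenfunctions are a `S19.LocalCoordDatum`.]
* glue (`Sel/Glue.lean`): (F) + (K) ⟹ `ρ' mod v` is of type flat ⟹ `ker β ≤ (v)` (universality of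
  `R`); `β` is onto (tangent criterion); `α² ≠ 1` ⟹ `v ∈ I'`; the image of `(v)` in `I'/I'²` is
  cyclic and killed by `α² - 1`.

Definitions only.
-/

set_option autoImplicit false

open IsLocalRing

namespace Fermat.Agent.S59.NMP.Sel

open Fermat.Agent.S59.H649 (IsOrdLineAt)
open Fermat.Agent.S59.H779 (Lev FlatLevel)

/-- **Peu ramifié at the finite level `I`** (Kummer form): for every point `x` of `V ⧸ I V` and
every additive character `χ` of `V ⧸ I V` with values in `ℚ̄`, the Kummer cocycle
`σ ↦ χ (σ x - x)` of the inertia group of `P` is the coboundary of a `P`-unit.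
(Over a field this is `H649.IsPeuAt` after averaging over `I / I_ζ`.) -/
def IsPeuLevel {A : Type} [CommRing A] [IsLocalRing A] (ρ : GaloisRepAdic A)
    (P : ValuationSubring (AlgebraicClosure ℚ)) (I : Ideal A) : Prop :=
  ∀ (χ : AddChar (Lev ρ I) (AlgebraicClosure ℚ)) (x : Lev ρ I),
    ∃ B : AlgebraicClosure ℚ, P.valuation B = 1 ∧
      ∀ σ ∈ P.inertiaSubgroupIn ℚ, σ B = χ (ρ.levelAction I σ x - x) * B

/-- **(F) PEU ⟹ HOPF MODEL at a finite level.**  `ρ` over a Noetherian local ring with cyclotomic
determinant and an ordinary line at ONE place `P | p`; `I` an ideal of finite index; if the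
level `I` is peu ramifié, then `V ⧸ I V` has a Hopf model over `ℤ_(p)`. -/
def PeuHopfStatement : Prop :=
  ∀ (p : ℕ) [Fact p.Prime] (A : Type) [CommRing A] [IsLocalRing A] [IsNoetherianRing A]
    (ρ : GaloisRepAdic A),
    ρ.DetIsCyclotomic p →
    ∀ P : ValuationSubring (AlgebraicClosure ℚ), P.LiesOverPrime p →
    ∀ L : Submodule A ρ.V, IsOrdLineAt ρ P L →
    ∀ I : Ideal A, Finite (A ⧸ I) → IsPeuLevel ρ P I → FlatLevel p ρ I

/-- **(K) THE KUMMER VALUATION ELEMENT.**  `ρ` over a complete Noetherian local ring with finite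
residue field, cyclotomic determinant, an ordinary line `L` at `P | p`, and `a` the scalar by
which the Frobenius elements at `P` act on `V / L`.  Then there is `v ∈ A` with
`(a² - 1) v = 0` such that every finite level `I ∋ v` is peu ramifié.

[`v = lim v_I`, where for an additive character `ψ` of `A/I` the Kummer generator `B_ψ` of the
cocycle `τ ↦ ψ (c τ)` (`c` = upper right entry on inertia; Hilbert 90 at finite level,
`H649.hilbert90_subgroup`) has `v_P (B_ψ ^ pⁿ) = v_P (p) ^ j` (`S56.H460.unrVal`) with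
`ζ_n ^ j = ψ (v_I)`; conjugation by a Frobenius `φ` gives `j_{ψ ∘ a⁻²} = j_ψ`.] -/
def KumValStatement : Prop :=
  ∀ (p : ℕ) [Fact p.Prime], p ≠ 2 →
    ∀ (A : Type) [CommRing A] [IsLocalRing A] [IsNoetherianRing A]
      [IsAdicComplete (maximalIdeal A) A] [Finite (ResidueField A)] (ρ : GaloisRepAdic A),
      ρ.DetIsCyclotomic p →
      ∀ P : ValuationSubring (AlgebraicClosure ℚ), P.LiesOverPrime p →
      ∀ L : Submodule A ρ.V, IsOrdLineAt ρ P L →
      ∀ a : A,
        (∀ σ : AlgebraicClosure ℚ ≃ₐ[ℚ] AlgebraicClosure ℚ, P.IsFrobeniusAt σ p →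
          ∀ w : ρ.V, ρ.ρ σ w - a • w ∈ L) →
        ∃ v : A, (a ^ 2 - 1) * v = 0 ∧
          ∀ I : Ideal A, Finite (A ⧸ I) → v ∈ I → IsPeuLevel ρ P I

end Fermat.Agent.S59.NMP.Sel
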