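import Fermat.Agent.S59.NMP.Sel.Spec
import Fermat.Agent.S59.NMP.H139.OrdLine
import Fermat.Agent.S59.H126.NMSel
import Fermat.Agent.S59.TW.H123.DefRingRes
import Fermat.Agent.S59.H659.SigmaCond

/-!
# Row S59, cell NMP, leaf SEL — the glue (helper139)

`sel_of : PeuHopfStatement → KumValStatement → NMP.SelStatement`.

`R' = R^ord`, `R = R^flat`, `β : R' → R`, `x : R → 𝒪`, `I' = ker (x ∘ β)`, `I = ker x`.

1. `β` is onto (tangent criterion `TW.H123.surjective_of_tangent_injective123`);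
2. `a ∈ R'` the Frobenius scalar of the universal ordinary line at `P`; `x (β a) = α`
   (uniqueness of the ordinary line, `H139.UnrFrobAtP.unique`);
3. (K) gives `v ∈ R'` with `(a² - 1) v = 0`; hence `v ∈ I'` (`α² ≠ 1`, `𝒪` a domain);
4. (F) + (K): `ρ' mod v` is flat at `p`, so of type flat; universality of `R` gives
   `ker β ≤ (v)`;
5. `ker (I'/I'² → I/I²)` is the image of `ker β`, hence a quotient of `𝒪/(α² - 1)`.
-/

set_option autoImplicit false
set_option linter.unusedSectionVars false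
set_option linter.unusedVariables false
set_option linter.style.haveILetI false

open IsLocalRing

namespace Fermat.Agent.S59.NMP.Sel

open Fermat.Agent.S53 Fermat.Agent.S53.H113
open Fermat.Agent.S59.Arch (PType pCond sigmaCond ResidualHyp)
open Fermat.Agent.S59.H649 (IsOrdLineAt)
open Fermat.Agent.S59.H779 (Lev FlatLevel)
open Fermat.Agent.S59.NMP.H139 (UnrFrobAtP)

/-! ### Step 1: `β` is onto -/

section Surj

open Fermat.Agent.S56 Fermat.Agent.S56.H134 Fermat.Agent.S56.H596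

attribute [local instance] Fermat.Agent.S56.tanAlgebra

/-- The comparison map between two universal deformation rings (conditions `𝒟' ⊇ 𝒟`, the target
condition a deformation condition) is onto. -/
theorem beta_surjective139 {p : ℕ} [Fact p.Prime] (hp2 : p ≠ 2)
    {𝒪 : Type} [CommRing 𝒪] [IsDomain 𝒪] [IsDiscreteValuationRing 𝒪]
    [IsAdicComplete (maximalIdeal 𝒪) 𝒪] [Finite (ResidueField 𝒪)]
    {ρbar : ResidualGaloisRep (ResidueField 𝒪)} {Smin Sig : Finset ℕ} {t t' : PType}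
    (D : GaloisRep.DeformationRingData 𝒪 ρbar (sigmaCond 𝒪 p t Smin Sig))
    (D' : GaloisRep.DeformationRingData 𝒪 ρbar (sigmaCond 𝒪 p t' Smin Sig))
    (β : D'.R →ₐ[𝒪] D.R) (hβ : IsLocalHom (β : D'.R →+* D.R))
    (hβρ : (D'.ρ.baseChangeAlong (β : D'.R →+* D.R) hβ).IsEquiv D.ρ) :
    Function.Surjective β := by
  classical
  have hc : GaloisRep.IsDeformationCondition 𝒪 (sigmaCond 𝒪 p t Smin Sig) :=
    Fermat.Agent.S59.H659.isDeformationCondition_sigmaCond 𝒪 p Fact.out hp2 t Smin Sig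
  refine Fermat.Agent.S59.TW.H123.surjective_of_tangent_injective123 D.residue_surjective β hβ ?_
  intro φ ψ hφs hφψ
  haveI hlocD := isLocalHom_tanAlgebra 𝒪
  haveI := isAdicComplete_dualNumber (ResidueField 𝒪)
  have hφloc := isLocalHom_tanHom φ
  have hψloc := isLocalHom_tanHom ψ
  have h𝒟 : sigmaCond 𝒪 p t Smin Sig
      (D.ρ.baseChangeAlong (φ : D.R →+* DualNumber (ResidueField 𝒪)) hφloc) :=
    (hc.iff_forall_surjective D.instIsLocalHom D.residue_surjective D.ρ).mp D.isOfType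
      (Fermat.Agent.S53.isArtinianTestAlgebra_dualNumber 𝒪) φ hφloc hφs
  have hresid := Fermat.Agent.S59.TW.H123.residual_tanHom123 ρbar D.ρ D.residual_isEquiv φ
  have huniv := D.universal (DualNumber (ResidueField 𝒪)) (residue_tanAlgebra_surjective 𝒪)
    _ h𝒟 hresid
  have hχ : IsLocalHom ((φ : D.R →+* DualNumber (ResidueField 𝒪)).comp (β : D'.R →+* D.R)) :=
    ⟨fun a ha => hβ.map_nonunit a (hφloc.map_nonunit _ ha)⟩
  have e1 := baseChangeAlong_comp_isEquiv' (β : D'.R →+* D.R) hβ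
    (φ : D.R →+* DualNumber (ResidueField 𝒪)) hφloc _ hχ rfl D'.ρ
  have e2 := baseChangeAlong_comp_isEquiv' (β : D'.R →+* D.R) hβ
    (ψ : D.R →+* DualNumber (ResidueField 𝒪)) hψloc _ hχ
    (RingHom.ext fun x => (hφψ x).symm) D'.ρ
  have e3 := isEquiv_baseChangeAlong (ψ : D.R →+* DualNumber (ResidueField 𝒪)) hψloc
    (isEquiv_symm hβρ)
  have e4 := isEquiv_baseChangeAlong (φ : D.R →+* DualNumber (ResidueField 𝒪)) hφloc hβρ
  have hψφ := isEquiv_trans (isEquiv_trans (isEquiv_trans e3 e2) (isEquiv_symm e1)) e4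
  exact huniv.unique ⟨hφloc, isEquiv_refl _⟩ ⟨hψloc, hψφ⟩

end Surj

/-! ### Small lemmas -/

section Small

variable {𝒪 : Type} [CommRing 𝒪] [IsLocalRing 𝒪]

/-- The residue field of a local `𝒪`-algebra with residue field `k_𝒪` is finite. -/
theorem finite_residueField139 [Finite (ResidueField 𝒪)] {R : Type} [CommRing R] [IsLocalRing R]
    [Algebra 𝒪 R] [IsLocalHom (algebraMap 𝒪 R)]
    (hres : Function.Surjective (IsLocalRing.residue R ∘ algebraMap 𝒪 R)) :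
    Finite (ResidueField R) := by
  refine Finite.of_surjective (ResidueField.map (algebraMap 𝒪 R)) ?_
  intro z
  obtain ⟨o, ho⟩ := hres z
  exact ⟨IsLocalRing.residue 𝒪 o, by rw [ResidueField.map_residue]; exact ho⟩

theorem isLocalHom_aug139 {R : Type} [CommRing R] [IsLocalRing R] [Algebra 𝒪 R]
    (π : R →ₐ[𝒪] 𝒪) : IsLocalHom (π : R →+* 𝒪) :=
  isLocalHom_algHom (𝒪 := 𝒪) ⟨fun _ ha => ha⟩
    (fun x => by
      obtain ⟨y, rfl⟩ := IsLocalRing.residue_surjective x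
      exact ⟨y, rfl⟩) π

end Small

/-! ### Steps 2–4: the kernel of `β` -/

section Kernel

variable {p : ℕ} [Fact p.Prime]
  {𝒪 : Type} [CommRing 𝒪] [IsDomain 𝒪] [IsDiscreteValuationRing 𝒪]
  [IsAdicComplete (maximalIdeal 𝒪) 𝒪] [Finite (ResidueField 𝒪)]
  {ρbar : ResidualGaloisRep (ResidueField 𝒪)} {Smin Sig : Finset ℕ}

/-- **The kernel of `R^ord → R^flat`** is contained in the ideal generated by the Kummer
valuation element, which is killed by `a² - 1` and lies over `α`. -/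
theorem exists_kernel_generator139 (hF : PeuHopfStatement) (hK : KumValStatement) (hp2 : p ≠ 2)
    (D : GaloisRep.DeformationRingData 𝒪 ρbar (sigmaCond 𝒪 p .flat Smin Sig))
    (D' : GaloisRep.DeformationRingData 𝒪 ρbar (sigmaCond 𝒪 p .ord Smin Sig))
    (β : D'.R →ₐ[𝒪] D.R) (hβ : IsLocalHom (β : D'.R →+* D.R))
    (hβρ : (D'.ρ.baseChangeAlong (β : D'.R →+* D.R) hβ).IsEquiv D.ρ)
    (x : D.R →ₐ[𝒪] 𝒪) (hx : IsLocalHom (x : D.R →+* 𝒪)) (α : 𝒪)
    (hα : UnrFrobAt (D.ρ.baseChangeAlong (x : D.R →+* 𝒪) hx) p α) (hα1 : α ^ 2 ≠ 1) :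
    ∃ a v : D'.R, x (β a) = α ∧ (a ^ 2 - 1) * v = 0 ∧ x (β v) = 0 ∧
      RingHom.ker (β : D'.R →+* D.R) ≤ Ideal.span {v} := by
  classical
  have hpp : p.Prime := Fact.out
  -- the place, the line, the Frobenius scalar
  obtain ⟨P, hP, hαP⟩ := Fermat.Agent.S59.NMP.H139.exists_unrFrobAtP_of139 hα
  obtain ⟨L', hb', hD', hI'⟩ := D'.isOfType.1.2.1 P hP
  have hL' : IsOrdLineAt D'.ρ P L' := ⟨hb', hD', hI'⟩
  obtain ⟨a, ha⟩ := Fermat.Agent.S59.NMP.H139.exists_frobScalar139 hpp hP hL'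
  have haP : UnrFrobAtP D'.ρ P p a := ⟨L', hL', ha⟩
  have hdet' : D'.ρ.DetIsCyclotomic p := D'.isOfType.1.1
  have hdet : D.ρ.DetIsCyclotomic p := D.isOfType.1.1
  -- `x (β a) = α`
  have hx'loc : IsLocalHom ((x.comp β : D'.R →ₐ[𝒪] 𝒪) : D'.R →+* 𝒪) := isLocalHom_aug139 _
  have hxa : x (β a) = α := by
    have h1 := haP.baseChangeAlong ((x.comp β : D'.R →ₐ[𝒪] 𝒪) : D'.R →+* 𝒪) hx'loc
    have e1 := baseChangeAlong_comp_isEquiv' (β : D'.R →+* D.R) hβ (x : D.R →+* 𝒪) hx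
      ((x.comp β : D'.R →ₐ[𝒪] 𝒪) : D'.R →+* 𝒪) hx'loc rfl D'.ρ
    have e2 := isEquiv_baseChangeAlong (x : D.R →+* 𝒪) hx hβρ
    have h2 := h1.of_isEquiv (isEquiv_trans (isEquiv_symm e1) e2)
    have hdetx : (D.ρ.baseChangeAlong (x : D.R →+* 𝒪) hx).DetIsCyclotomic p :=
      Fermat.Agent.S56.H966.detIsCyclotomic_baseChangeAlong _ hx hdet
    exact Fermat.Agent.S59.NMP.H139.UnrFrobAtP.unique hpp hp2 hdetx hP h2 hαP
  -- (K)
  haveI : Finite (ResidueField D'.R) := finite_residueField139 D'.residue_surjective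
  obtain ⟨v, hv0, hvpeu⟩ := hK p hp2 D'.R D'.ρ hdet' P hP L' hL' a ha
  have hxv : x (β v) = 0 := by
    have h1 : x (β ((a ^ 2 - 1) * v)) = 0 := by rw [hv0, map_zero, map_zero]
    rw [map_mul, map_mul, map_sub, map_sub, map_pow, map_pow, hxa, map_one, map_one] at h1
    rcases mul_eq_zero.mp h1 with h | h
    · exact absurd (sub_eq_zero.mp h) hα1
    · exact h
  refine ⟨a, v, hxa, hv0, hxv, ?_⟩
  -- the quotient `B = R' ⧸ (v)`
  set J : Ideal D'.R := Ideal.span {v} with hJdef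
  have hvJ : v ∈ J := Ideal.subset_span (Set.mem_singleton v)
  have hJtop : J ≠ ⊤ := by
    intro h
    have h1 : (1 : D'.R) ∈ J := h ▸ Submodule.mem_top
    obtain ⟨c, hc⟩ := Ideal.mem_span_singleton'.mp h1
    have h2 : x (β (c * v)) = 1 := by rw [hc, map_one, map_one]
    rw [map_mul, map_mul, hxv, mul_zero] at h2
    exact zero_ne_one h2
  letI hlocB : IsLocalRing (D'.R ⧸ J) := Fermat.Agent.S53.H596.isLocalRing_quotient J hJtop
  haveI hcompB : IsAdicComplete (maximalIdeal (D'.R ⧸ J)) (D'.R ⧸ J) :=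
    Fermat.Agent.S53.H596.isAdicComplete_quotient J hJtop
  haveI hlocalB : IsLocalHom (algebraMap 𝒪 (D'.R ⧸ J)) :=
    Fermat.Agent.S53.H596.isLocalHom_algebraMap_quotient J hJtop
  have hresB : Function.Surjective (residue (D'.R ⧸ J) ∘ algebraMap 𝒪 (D'.R ⧸ J)) :=
    Fermat.Agent.S53.H596.residue_surjective_quotient D'.residue_surjective J hJtop
  have hloc : ∀ {A : Type} [CommRing A] [IsLocalRing A] [Algebra 𝒪 A]
      (f : A →ₐ[𝒪] (D'.R ⧸ J)), IsLocalHom (f : A →+* (D'.R ⧸ J)) := fun f =>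
    isLocalHom_algHom hlocalB hresB f
  let mkA : D'.R →ₐ[𝒪] (D'.R ⧸ J) := Ideal.Quotient.mkₐ 𝒪 J
  have hmkA : IsLocalHom (mkA : D'.R →+* D'.R ⧸ J) := hloc mkA
  have hmksurj : Function.Surjective (mkA : D'.R →+* D'.R ⧸ J) := Ideal.Quotient.mk_surjective
  have hmk0 : ∀ a : D'.R, mkA a = 0 ↔ a ∈ J := fun a => Ideal.Quotient.eq_zero_iff_mem
  set ρB : GaloisRepAdic (D'.R ⧸ J) := D'.ρ.baseChangeAlong (mkA : D'.R →+* D'.R ⧸ J) hmkA
    with hρB
  have h𝒟' : sigmaCond 𝒪 p .ord Smin Sig ρB :=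
    Fermat.Agent.S59.H126.sigmaCond_baseChangeAlong _ hmkA hmksurj D'.isOfType
  -- flatness of `ρB`
  have hflat : ρB.IsFlatAt p := by
    rw [Fermat.Agent.S59.H779.isFlatAt_iff_flatLevel]
    refine ⟨finite_residueField139 hresB, ?_⟩
    intro Ibar hIbar
    haveI := hIbar
    have hfin : Finite (D'.R ⧸ Ibar.comap (mkA : D'.R →+* D'.R ⧸ J)) :=
      Finite.of_injective (Ideal.quotientMap Ibar (mkA : D'.R →+* D'.R ⧸ J) le_rfl)
        (Ideal.quotientMap_injective)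
    have hvI : v ∈ Ibar.comap (mkA : D'.R →+* D'.R ⧸ J) := by
      rw [Ideal.mem_comap]
      have : (mkA : D'.R →+* D'.R ⧸ J) v = 0 := (hmk0 v).mpr hvJ
      rw [this]
      exact Ibar.zero_mem
    have hlev : FlatLevel p D'.ρ (Ibar.comap (mkA : D'.R →+* D'.R ⧸ J)) :=
      hF p D'.R D'.ρ hdet' P hP L' hL' _ hfin (hvpeu _ hfin hvI)
    exact Fermat.Agent.S59.H779.FlatLevel.baseChange (Fermat.Agent.S59.H659.hopfSubquot_closed p)
      (Fermat.Agent.S59.H659.hopfProd_closed p) (mkA : D'.R →+* D'.R ⧸ J) hmkA hlev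
  have h𝒟 : sigmaCond 𝒪 p .flat Smin Sig ρB := ⟨⟨h𝒟'.1.1, hflat, h𝒟'.1.2.2⟩, h𝒟'.2⟩
  have hresρB := Fermat.Agent.S59.H126.residual_isEquiv_baseChangeAlong ρbar D'.ρ
    D'.residual_isEquiv mkA hmkA
  obtain ⟨χ, ⟨hχloc, hχρ⟩, -⟩ := D.universal (D'.R ⧸ J) hresB ρB h𝒟 hresρB
  obtain ⟨θ, -, hθuniq⟩ := D'.universal (D'.R ⧸ J) hresB ρB h𝒟' hresρB
  have h1 : mkA = θ := hθuniq mkA ⟨hmkA, isEquiv_refl _⟩
  have h2 : χ.comp β = θ := by
    refine hθuniq (χ.comp β) ⟨hloc _, ?_⟩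
    have ea := baseChangeAlong_comp_isEquiv' (β : D'.R →+* D.R) hβ (χ : D.R →+* D'.R ⧸ J) hχloc
      ((χ.comp β : D'.R →ₐ[𝒪] D'.R ⧸ J) : D'.R →+* D'.R ⧸ J) (hloc _) rfl D'.ρ
    have eb := isEquiv_baseChangeAlong (χ : D.R →+* D'.R ⧸ J) hχloc hβρ
    exact isEquiv_trans (isEquiv_symm ea) (isEquiv_trans eb hχρ)
  have hχβ : ∀ a : D'.R, χ (β a) = mkA a := by
    intro a
    have := congrArg (fun f : D'.R →ₐ[𝒪] D'.R ⧸ J => f a) (h2.trans h1.symm)
    exact this
  intro c hc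
  rw [RingHom.mem_ker] at hc
  have h3 : β c = 0 := hc
  rw [← hmk0, ← hχβ, h3, map_zero]

end Kernel

/-! ### Step 5: the count -/

/-- **GLUE of the leaf SEL.** -/
theorem sel_of (hF : PeuHopfStatement) (hK : KumValStatement) :
    Fermat.Agent.S59.NMP.SelStatement := by
  intro p _ 𝒪 _ _ _ _ _ _ ρbar Smin hRH Sig hSig hSigP hord D D' β hβ hβρ x hx α hα hα1 hfin
  classical
  have hpp : p.Prime := Fact.out
  have hp2 : p ≠ 2 := hRH.hp2
  have hsurj : Function.Surjective β := beta_surjective139 hp2 D D' β hβ hβρ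
  obtain ⟨a, v, hxa, hv0, hxv, hker⟩ :=
    exists_kernel_generator139 hF hK hp2 D D' β hβ hβρ x hx α hα hα1
  have hc : α ^ 2 - 1 ≠ 0 := sub_ne_zero.mpr hα1
  have hfinc : Finite (𝒪 ⧸ Ideal.span {α ^ 2 - 1}) :=
    Fermat.Agent.S59.H126.finite_quot_span_singleton hc
  set I' : Ideal D'.R := Fermat.Agent.S59.NC.augIdeal (x.comp β) with hI'
  set I : Ideal D.R := Fermat.Agent.S59.NC.augIdeal x with hI
  have hmemI' : ∀ a : D'.R, a ∈ I' ↔ x (β a) = 0 := fun a => RingHom.mem_ker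
  have hmemI : ∀ b : D.R, b ∈ I ↔ x b = 0 := fun b => RingHom.mem_ker
  have hvI' : v ∈ I' := (hmemI' v).mpr hxv
  have hle : I' ≤ I.comap β := by
    intro a ha
    rw [Ideal.mem_comap, hmemI]
    exact (hmemI' a).mp ha
  let μ : I'.Cotangent →ₗ[𝒪] I.Cotangent := Ideal.mapCotangent I' I β hle
  have hImap : I = I'.map (β : D'.R →+* D.R) := by
    have h1 : I' = I.comap (β : D'.R →+* D.R) := by
      ext a
      rw [hmemI', Ideal.mem_comap, hmemI]
      rfl
    rw [h1]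
    exact (Ideal.map_comap_of_surjective (β : D'.R →+* D.R) hsurj I).symm
  -- `o - algebraMap (x (β o)) ∈ I'`
  have hsplit : ∀ c : D'.R, algebraMap 𝒪 D'.R (x (β c)) - c ∈ I' := by
    intro c
    rw [hmemI', map_sub, map_sub, sub_eq_zero]
    have h1 : β (algebraMap 𝒪 D'.R (x (β c))) = algebraMap 𝒪 D.R (x (β c)) := β.commutes _
    rw [h1]
    exact x.commutes _
  -- scalar multiples of the class of `v`
  have hsmul : ∀ (o : 𝒪) (y : D'.R) (hy : y ∈ I'),
      algebraMap 𝒪 D'.R o * v - y ∈ I' ^ 2 →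
        o • I'.toCotangent ⟨v, hvI'⟩ = I'.toCotangent ⟨y, hy⟩ := by
    intro o y hy h
    have h1 : o • I'.toCotangent ⟨v, hvI'⟩ =
        I'.toCotangent ⟨algebraMap 𝒪 D'.R o * v, I'.mul_mem_left _ hvI'⟩ := by
      rw [← algebraMap_smul D'.R o (I'.toCotangent ⟨v, hvI'⟩), ← map_smul]
      rfl
    rw [h1, Ideal.toCotangent_eq]
    exact h
  have hkill : (α ^ 2 - 1) • I'.toCotangent ⟨v, hvI'⟩ = 0 := by
    rw [hsmul (α ^ 2 - 1) 0 I'.zero_mem, ← map_zero I'.toCotangent]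
    · rfl
    · rw [sub_zero]
      have h1 : algebraMap 𝒪 D'.R (α ^ 2 - 1) - (a ^ 2 - 1) ∈ I' := by
        have := hsplit (a ^ 2 - 1)
        rwa [map_sub, map_sub, map_pow, map_pow, hxa, map_one, map_one] at this
      have h2 : algebraMap 𝒪 D'.R (α ^ 2 - 1) * v =
          (algebraMap 𝒪 D'.R (α ^ 2 - 1) - (a ^ 2 - 1)) * v := by
        rw [sub_mul, hv0, sub_zero]
      rw [h2, pow_two]
      exact Ideal.mul_mem_mul h1 hvI'
  -- every element of the kernel is a multiple of the class of `v`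
  have hlift : ∀ κ : LinearMap.ker μ, ∃ o : 𝒪,
      o • I'.toCotangent ⟨v, hvI'⟩ = (κ : I'.Cotangent) := by
    intro κ
    obtain ⟨⟨y, hy⟩, hκ⟩ := Ideal.toCotangent_surjective I' (κ : I'.Cotangent)
    have h1 : μ (I'.toCotangent ⟨y, hy⟩) = 0 := by
      rw [hκ]
      exact κ.2
    rw [Ideal.mapCotangent_toCotangent, Ideal.toCotangent_eq_zero] at h1
    have h2 : β y ∈ (I' ^ 2).map (β : D'.R →+* D.R) := by
      rw [Ideal.map_pow, ← hImap]
      exact h1
    obtain ⟨y₂, hy₂, hy₂'⟩ := (Ideal.mem_map_iff_of_surjective (β : D'.R →+* D.R) hsurj).mp h2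
    have hyJ : y - y₂ ∈ Ideal.span {v} := by
      apply hker
      rw [RingHom.mem_ker, map_sub, sub_eq_zero]
      exact hy₂'.symm
    obtain ⟨c, hc⟩ := Ideal.mem_span_singleton'.mp hyJ
    refine ⟨x (β c), ?_⟩
    rw [← hκ]
    apply hsmul
    have h3 : algebraMap 𝒪 D'.R (x (β c)) * v - y =
        (algebraMap 𝒪 D'.R (x (β c)) - c) * v - y₂ := by
      rw [sub_mul, hc]
      ring
    rw [h3]
    refine Ideal.sub_mem _ ?_ hy₂
    rw [pow_two]
    exact Ideal.mul_mem_mul (hsplit c) hvI'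
  choose g hg using hlift
  have hginj : Function.Injective
      (fun κ : LinearMap.ker μ => Ideal.Quotient.mk (Ideal.span {α ^ 2 - 1}) (g κ)) := by
    intro κ κ' h
    have h1 : g κ - g κ' ∈ Ideal.span {α ^ 2 - 1} := Ideal.Quotient.eq.mp h
    obtain ⟨d, hd⟩ := Ideal.mem_span_singleton'.mp h1
    apply Subtype.ext
    rw [← hg κ, ← hg κ', ← sub_eq_zero, ← sub_smul, ← hd, mul_smul, hkill, smul_zero]
  haveI hKfin : Finite (LinearMap.ker μ) := Finite.of_injective _ hginj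
  have hKcard : Nat.card (LinearMap.ker μ) ≤ Nat.card (𝒪 ⧸ Ideal.span {α ^ 2 - 1}) :=
    Nat.card_le_card_of_injective _ hginj
  -- the count
  haveI := hfin
  haveI : Finite I.Cotangent := hfin
  have hrange : Nat.card (I'.Cotangent ⧸ LinearMap.ker μ) ≤ Nat.card I.Cotangent := by
    rw [Nat.card_congr (LinearMap.quotKerEquivRange μ).toEquiv]
    exact Nat.card_le_card_of_injective _ (Subtype.val_injective)
  haveI : Finite (I'.Cotangent ⧸ LinearMap.ker μ) :=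
    Finite.of_equiv _ (LinearMap.quotKerEquivRange μ).toEquiv.symm
  have hmul := Submodule.card_eq_card_quotient_mul_card (LinearMap.ker μ)
  have hpos1 : 0 < Nat.card (LinearMap.ker μ) := Nat.card_pos
  have hpos2 : 0 < Nat.card (I'.Cotangent ⧸ LinearMap.ker μ) := Nat.card_pos
  have hfin' : Finite I'.Cotangent := by
    apply Nat.finite_of_card_ne_zero
    rw [hmul]
    exact (Nat.mul_pos hpos1 hpos2).ne'
  refine ⟨hfin', ?_⟩
  show Nat.card I'.Cotangent ≤ Nat.card I.Cotangent * Nat.card (𝒪 ⧸ Ideal.span {α ^ 2 - 1})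
  rw [hmul, mul_comm]
  exact Nat.mul_le_mul hrange hKcard

end Fermat.Agent.S59.NMP.Sel
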